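/-
Determinants in short exact sequences, and the behaviour of the norm of a finite dimensional
commutative algebra along `A ⧸ 𝔪𝔞 → A ⧸ 𝔞`.
-/
import Mathlib

set_option autoImplicit false

namespace Fermat.Agent.Lib.ResidueNorm

open Module

section Exact

variable {κ V₁ V₂ V₃ : Type*} [Field κ]
  [AddCommGroup V₁] [Module κ V₁] [AddCommGroup V₂] [Module κ V₂] [AddCommGroup V₃] [Module κ V₃]
  [FiniteDimensional κ V₂]

/-- The determinant is multiplicative in short exact sequences. -/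
theorem det_eq_mul_of_exact (i : V₁ →ₗ[κ] V₂) (π : V₂ →ₗ[κ] V₃)
    (hi : Function.Injective i) (hπ : Function.Surjective π)
    (hex : LinearMap.range i = LinearMap.ker π)
    (f₁ : V₁ →ₗ[κ] V₁) (f₂ : V₂ →ₗ[κ] V₂) (f₃ : V₃ →ₗ[κ] V₃)
    (h₁ : ∀ v, i (f₁ v) = f₂ (i v)) (h₃ : ∀ v, π (f₂ v) = f₃ (π v)) :
    LinearMap.det f₂ = LinearMap.det f₁ * LinearMap.det f₃ := by
  set W : Submodule κ V₂ := LinearMap.range i with hW
  have he : W ≤ W.comap f₂ := by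
    rintro _ ⟨v, rfl⟩
    exact ⟨f₁ v, h₁ v⟩
  rw [LinearMap.det_eq_det_mul_det W f₂ he]
  let e₁ : V₁ ≃ₗ[κ] W := LinearEquiv.ofInjective i hi
  let e₃ : (V₂ ⧸ W) ≃ₗ[κ] V₃ :=
    (Submodule.quotEquivOfEq _ _ hex).trans (π.quotKerEquivOfSurjective hπ)
  have hc₁ : f₂.restrict he = (e₁ : V₁ →ₗ[κ] W) ∘ₗ f₁ ∘ₗ (e₁.symm : W →ₗ[κ] V₁) := by
    ext ⟨_, v, rfl⟩
    have : e₁.symm ⟨i v, v, rfl⟩ = v := by
      apply e₁.injective
      rw [LinearEquiv.apply_symm_apply]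
      rfl
    simp only [LinearMap.coe_restrict_apply, LinearMap.coe_comp, LinearEquiv.coe_coe,
      Function.comp_apply, this]
    exact (h₁ v).symm
  have hc₃ : W.mapQ W f₂ he = (e₃.symm : V₃ →ₗ[κ] V₂ ⧸ W) ∘ₗ f₃ ∘ₗ (e₃ : (V₂ ⧸ W) →ₗ[κ] V₃) := by
    apply LinearMap.ext
    intro w
    obtain ⟨v, rfl⟩ := Submodule.Quotient.mk_surjective W w
    apply e₃.injective
    simp only [LinearMap.coe_comp, LinearEquiv.coe_coe, Function.comp_apply,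
      LinearEquiv.apply_symm_apply]
    exact h₃ v
  rw [hc₁, hc₃, LinearMap.det_conj]
  congr 1
  exact LinearMap.det_conj f₃ e₃.symm

end Exact

section Alg

variable {κ A : Type*} [Field κ] [CommRing A] [Algebra κ A] [FiniteDimensional κ A]

/-- If `𝔞 / 𝔪𝔞` is generated by the class of `a` and is isomorphic to `A ⧸ 𝔪` through `a`, then the
norm on `A ⧸ 𝔪𝔞` is the product of the norms on `A ⧸ 𝔪` and `A ⧸ 𝔞`. -/
theorem norm_mk_mul (𝔪 𝔞 : Ideal A) (a : A) (ha : a ∈ 𝔞)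
    (hsurj : 𝔞 ≤ Ideal.span {a} ⊔ 𝔪 * 𝔞) (hinj : ∀ s, s * a ∈ 𝔪 * 𝔞 → s ∈ 𝔪) (x : A) :
    Algebra.norm κ (Ideal.Quotient.mk (𝔪 * 𝔞) x) =
      Algebra.norm κ (Ideal.Quotient.mk 𝔪 x) * Algebra.norm κ (Ideal.Quotient.mk 𝔞 x) := by
  have hmap : 𝔪 ≤ Submodule.comap (LinearMap.mulRight A a) (𝔪 * 𝔞) := by
    intro s hs
    exact Ideal.mul_mem_mul hs ha
  let i : (A ⧸ 𝔪) →ₗ[κ] (A ⧸ (𝔪 * 𝔞)) :=
    (Submodule.mapQ 𝔪 (𝔪 * 𝔞) (LinearMap.mulRight A a) hmap).restrictScalars κ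
  let π : (A ⧸ (𝔪 * 𝔞)) →ₗ[κ] (A ⧸ 𝔞) :=
    (Ideal.Quotient.factorₐ κ (Ideal.mul_le_right : 𝔪 * 𝔞 ≤ 𝔞)).toLinearMap
  have hi_mk : ∀ s : A, i (Ideal.Quotient.mk 𝔪 s) = Ideal.Quotient.mk (𝔪 * 𝔞) (s * a) := fun s => rfl
  have hπ_mk : ∀ s : A, π (Ideal.Quotient.mk (𝔪 * 𝔞) s) = Ideal.Quotient.mk 𝔞 s := fun s => rfl
  rw [Algebra.norm_apply, Algebra.norm_apply, Algebra.norm_apply]
  refine det_eq_mul_of_exact i π ?_ ?_ ?_ _ _ _ ?_ ?_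
  · rw [injective_iff_map_eq_zero]
    intro s hs
    obtain ⟨s, rfl⟩ := Ideal.Quotient.mk_surjective s
    rw [hi_mk, Ideal.Quotient.eq_zero_iff_mem] at hs
    exact Ideal.Quotient.eq_zero_iff_mem.mpr (hinj s hs)
  · intro s
    obtain ⟨s, rfl⟩ := Ideal.Quotient.mk_surjective s
    exact ⟨Ideal.Quotient.mk _ s, hπ_mk s⟩
  · apply le_antisymm
    · rintro _ ⟨s, rfl⟩
      obtain ⟨s, rfl⟩ := Ideal.Quotient.mk_surjective s
      rw [LinearMap.mem_ker, hi_mk, hπ_mk, Ideal.Quotient.eq_zero_iff_mem]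
      exact 𝔞.mul_mem_left s ha
    · intro s hs
      obtain ⟨s, rfl⟩ := Ideal.Quotient.mk_surjective s
      rw [LinearMap.mem_ker, hπ_mk, Ideal.Quotient.eq_zero_iff_mem] at hs
      obtain ⟨y, hy, z, hz, rfl⟩ := Submodule.mem_sup.mp (hsurj hs)
      obtain ⟨c, rfl⟩ := Ideal.mem_span_singleton'.mp hy
      refine ⟨Ideal.Quotient.mk 𝔪 c, ?_⟩
      rw [hi_mk, map_add, Ideal.Quotient.eq_zero_iff_mem.mpr hz, add_zero]
  · intro s
    obtain ⟨s, rfl⟩ := Ideal.Quotient.mk_surjective s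
    simp only [Algebra.coe_lmul_eq_mul, LinearMap.mul_apply', ← map_mul, hi_mk, mul_assoc]
  · intro s
    obtain ⟨s, rfl⟩ := Ideal.Quotient.mk_surjective s
    simp only [Algebra.coe_lmul_eq_mul, LinearMap.mul_apply', ← map_mul, hπ_mk]

end Alg

end Fermat.Agent.Lib.ResidueNorm
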