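/-
Residue norm formula: for a finite extension `S / R` of Dedekind domains, a maximal ideal `p` of `R`
and any factorisation `pS = ∏ P i ^ e i` into maximal ideals,
`(N_{S/R} x mod p) = ∏ i, N_{(S/P i)/(R/p)} (x mod P i) ^ e i`.
-/
import Fermat.Agent.Lib.ResidueNorm.Exact
import Fermat.Agent.Lib.ResidueNorm.Quotient

set_option autoImplicit false

namespace Fermat.Agent.Lib.ResidueNorm

variable {R S : Type*} [CommRing R] [CommRing S] [Algebra R S]

attribute [local instance] Ideal.Quotient.field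

/-- The norm of the class of `y` in the `κ`-algebra `A ⧸ 𝔞`. -/
noncomputable def normMk (κ : Type*) {A : Type*} [CommRing κ] [CommRing A] [Algebra κ A]
    (𝔞 : Ideal A) (y : A) : κ :=
  Algebra.norm κ (Ideal.Quotient.mk 𝔞 y)

section Aux

variable (p : Ideal R)

local notation "pS" => Ideal.map (algebraMap R S) p

/-- The norm of `x` in the `R ⧸ p`-algebra `(S ⧸ pS) ⧸ (image of P)`. -/
noncomputable def auxNorm (P : Ideal S) (x : S) : R ⧸ p :=
  normMk (R ⧸ p) (P.map (Ideal.Quotient.mk pS)) (Ideal.Quotient.mk pS x)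

variable {p}

theorem auxNorm_top (x : S) : auxNorm p (⊤ : Ideal S) x = 1 := by
  unfold auxNorm normMk
  have h : (⊤ : Ideal S).map (Ideal.Quotient.mk pS) = ⊤ :=
    Ideal.map_top _
  have : Subsingleton ((S ⧸ pS) ⧸ (⊤ : Ideal S).map (Ideal.Quotient.mk pS)) := by
    rw [h]; exact Ideal.Quotient.subsingleton_iff.mpr rfl
  rw [Algebra.norm_apply]
  exact LinearMap.det_eq_one_of_subsingleton _

end Aux

section Dedekind

variable (p : Ideal R) [p.IsMaximal] [IsDedekindDomain S] [Module.Finite R S]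

local notation "pS" => Ideal.map (algebraMap R S) p

instance : Module.Finite (R ⧸ p) (S ⧸ pS) :=
  Module.Finite.of_restrictScalars_finite R (R ⧸ p) (S ⧸ pS)

theorem exists_generator_mod (P J : Ideal S) (hP : P.IsMaximal) (hJ : J ≠ ⊥) :
    ∃ a ∈ J, J ≤ Ideal.span {a} ⊔ P * J ∧ ∀ s, s * a ∈ P * J → s ∈ P := by
  have hlt : P * J < J := by
    refine lt_of_le_of_ne Ideal.mul_le_right ?_
    intro h
    have : P = 1 := (mul_eq_right₀ hJ).mp h
    exact hP.ne_top (by simpa using this)
  obtain ⟨a, haJ, haPJ⟩ := SetLike.exists_of_lt hlt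
  refine ⟨a, haJ, ?_, ?_⟩
  · set X : Ideal S := Ideal.span {a} ⊔ P * J with hX
    have hXJ : X ≤ J := sup_le ((Ideal.span_singleton_le_iff_mem _).mpr haJ) hlt.le
    obtain ⟨Y, hY⟩ : J ∣ X := Ideal.dvd_iff_le.mpr hXJ
    have hPX : X ∣ P * J := Ideal.dvd_iff_le.mpr le_sup_right
    rw [hY, mul_comm P J] at hPX
    have hYP : Y ∣ P := (mul_dvd_mul_iff_left hJ).mp hPX
    have hPY : P ≤ Y := Ideal.dvd_iff_le.mp hYP
    by_cases hYtop : Y = ⊤
    · rw [hY, hYtop, Ideal.mul_top]
    · exfalso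
      have hPeq : P = Y := hP.eq_of_le hYtop hPY
      apply haPJ
      rw [mul_comm P J, hPeq, ← hY]
      exact Ideal.mem_sup_left (Ideal.mem_span_singleton_self a)
  · intro s hs
    by_contra hsP
    obtain ⟨y, i, hi, hyi⟩ := hP.exists_inv hsP
    apply haPJ
    have : a = y * (s * a) + i * a := by
      calc a = (y * s + i) * a := by rw [hyi, one_mul]
        _ = y * (s * a) + i * a := by ring
    rw [this]
    exact (P * J).add_mem ((P * J).mul_mem_left y hs) (Ideal.mul_mem_mul hi haJ)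

theorem auxNorm_multiset_prod (hp : pS ≠ ⊥) (x : S) (s : Multiset (Ideal S))
    (hs : ∀ P ∈ s, P.IsMaximal) (hle : pS ≤ s.prod) :
    auxNorm p s.prod x = (s.map fun P => auxNorm p P x).prod := by
  induction s using Multiset.induction_on with
  | empty =>
    simp only [Multiset.prod_zero, Multiset.map_zero, Ideal.one_eq_top]
    exact auxNorm_top x
  | cons P s ih =>
    rw [Multiset.prod_cons] at hle ⊢
    rw [Multiset.map_cons, Multiset.prod_cons]
    have hP : P.IsMaximal := hs P (Multiset.mem_cons_self P s)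
    have hle' : pS ≤ s.prod := hle.trans Ideal.mul_le_right
    have hJ : s.prod ≠ ⊥ := fun h => hp (le_bot_iff.mp (h ▸ hle'))
    rw [← ih (fun Q hQ => hs Q (Multiset.mem_cons_of_mem hQ)) hle']
    obtain ⟨a, haJ, hsurj, hinj⟩ := exists_generator_mod P s.prod hP hJ
    unfold auxNorm
    have hmul : (P * s.prod).map (Ideal.Quotient.mk pS) =
        P.map (Ideal.Quotient.mk pS) * s.prod.map (Ideal.Quotient.mk pS) := Ideal.map_mul _ _ _
    rw [hmul]
    unfold normMk
    refine norm_mk_mul _ _ (Ideal.Quotient.mk pS a) (Ideal.mem_map_of_mem _ haJ) ?_ ?_ _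
    · have := Ideal.map_mono (f := Ideal.Quotient.mk pS) hsurj
      rwa [Ideal.map_sup, Ideal.map_span, Set.image_singleton, hmul] at this
    · intro t ht
      obtain ⟨t, rfl⟩ := Ideal.Quotient.mk_surjective t
      rw [← hmul, ← map_mul, Ideal.mem_quotient_iff_mem hle] at ht
      exact Ideal.mem_map_of_mem _ (hinj t ht)

omit [p.IsMaximal] [IsDedekindDomain S] [Module.Finite R S] in
theorem auxNorm_map_self (x : S) :
    auxNorm p pS x = Algebra.norm (R ⧸ p) (Ideal.Quotient.mk pS x) := by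
  unfold auxNorm
  rw [Ideal.map_quotient_self]
  unfold normMk
  rw [Algebra.norm_eq_of_equiv_equiv (RingEquiv.refl (R ⧸ p)) (RingEquiv.quotientBot (S ⧸ pS))]
  · rfl
  · rfl

omit [p.IsMaximal] [IsDedekindDomain S] [Module.Finite R S] in
theorem auxNorm_eq_of_liesOver (P : Ideal S) [P.LiesOver p] (x : S) :
    auxNorm p P x = Algebra.norm (R ⧸ p) (Ideal.Quotient.mk P x) := by
  have hle : pS ≤ P := by
    rw [Ideal.map_le_iff_le_comap, ← Ideal.under_def, ← Ideal.LiesOver.over (p := p) (P := P)]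
  unfold auxNorm normMk
  rw [Algebra.norm_eq_of_equiv_equiv (RingEquiv.refl (R ⧸ p)) (DoubleQuot.quotQuotEquivQuotOfLE hle)]
  · rfl
  · ext r
    rfl

/-- **Residue norm formula.** -/
theorem mk_intNorm_eq_prod [IsDedekindDomain R] [Module.IsTorsionFree R S]
    {ι : Type*} [Fintype ι] (P : ι → Ideal S) (e : ι → ℕ)
    [∀ i, (P i).IsMaximal] [∀ i, (P i).LiesOver p]
    (hp : pS ≠ ⊥) (hfac : pS = ∏ i, P i ^ e i) (x : S) :
    Ideal.Quotient.mk p (Algebra.intNorm R S x) =
      ∏ i, Algebra.norm (R ⧸ p) (Ideal.Quotient.mk (P i) x) ^ e i := by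
  classical
  rw [← norm_quotient_eq_of_isDedekindDomain S p x, ← auxNorm_map_self]
  set s : Multiset (Ideal S) := ∑ i, Multiset.replicate (e i) (P i) with hs
  have hprod : s.prod = pS := by
    rw [hfac, hs, Multiset.prod_sum]
    simp
  have hmem : ∀ Q ∈ s, Q.IsMaximal := by
    intro Q hQ
    rw [hs, Multiset.mem_sum] at hQ
    obtain ⟨i, -, hi⟩ := hQ
    rw [Multiset.eq_of_mem_replicate hi]
    infer_instance
  have := auxNorm_multiset_prod p hp x s hmem hprod.ge
  rw [hprod] at this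
  have hmap : Multiset.map (fun P => auxNorm p P x) (∑ i, Multiset.replicate (e i) (P i)) =
      ∑ i, Multiset.map (fun P => auxNorm p P x) (Multiset.replicate (e i) (P i)) :=
    map_sum (Multiset.mapAddMonoidHom fun P => auxNorm p P x) _ _
  rw [this, hs, hmap, Multiset.prod_sum]
  refine Finset.prod_congr rfl fun i _ => ?_
  rw [Multiset.map_replicate, Multiset.prod_replicate, auxNorm_eq_of_liesOver]

end Dedekind

end Fermat.Agent.Lib.ResidueNorm
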